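import Fermat.Agent.S05lib.Core

/-!
# The component function on a model with multiplicative reduction
-/

namespace Fermat.Agent.S05lib

variable {G : Type*} [AddCommGroup G] {K : Type*} [Field K] {α β : K}
  {Γ₀ : Type*} [LinearOrderedCommGroupWithZero Γ₀]

/-- Membership in the subgroup generated by `v β ^ 2`. -/
def InH (v : Valuation K Γ₀) (β : K) (g : Γ₀) : Prop := ∃ j : ℤ, g = (v β ^ 2) ^ j

lemma Good.inH {v : Valuation K Γ₀} {g : Γ₀} (h : Good v β g) : InH v β g := by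
  rcases h with h | h | h
  · exact ⟨0, by rw [h, zpow_zero]⟩
  · exact ⟨1, by rw [h, zpow_one]⟩
  · exact ⟨-1, by rw [h, zpow_neg_one]⟩

lemma InH.mul {v : Valuation K Γ₀} (hβ : β ≠ 0) {g h : Γ₀} (hg : InH v β g) (hh : InH v β h) :
    InH v β (g * h) := by
  obtain ⟨i, rfl⟩ := hg
  obtain ⟨j, rfl⟩ := hh
  have : v β ^ 2 ≠ 0 := pow_ne_zero 2 (v.ne_zero_iff.mpr hβ)
  exact ⟨i + j, (zpow_add₀ this i j).symm⟩

lemma InH.inv {v : Valuation K Γ₀} {g : Γ₀} (hg : InH v β g) : InH v β g⁻¹ := by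
  obtain ⟨i, rfl⟩ := hg
  exact ⟨-i, (zpow_neg _ i).symm⟩

lemma InH.ne_zero {v : Valuation K Γ₀} (hβ : β ≠ 0) {g : Γ₀} (hg : InH v β g) : g ≠ 0 := by
  obtain ⟨i, rfl⟩ := hg
  exact zpow_ne_zero i (pow_ne_zero 2 (v.ne_zero_iff.mpr hβ))

namespace Model

variable (M : Model G K α β) (v : Valuation K Γ₀)

open Classical in
/-- The component value of a point. -/
noncomputable def cval (a : K) (P : G) : Γ₀ :=
  if P = 0 then 1 else cv v β a (M.X P) (M.Y P / M.X P)

/-- Nonzero points which are neither in the kernel of reduction nor in its translate by `(0,0)`. -/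
def Mid (P : G) : Prop := P ≠ 0 ∧ v β ≤ v (M.X P) ∧ v (M.X P) ≤ 1

variable {M v}

lemma cval_zero (a : K) : M.cval v a 0 = 1 := by simp [cval]

lemma cval_of_ne {a : K} {P : G} (hP : P ≠ 0) :
    M.cval v a P = cv v β a (M.X P) (M.Y P / M.X P) := by simp [cval, hP]

lemma Mid.X_ne_zero (hβ0 : β ≠ 0) {P : G} (h : M.Mid v P) : M.X P ≠ 0 := by
  intro h0
  have := h.2.1
  rw [h0, map_zero] at this
  exact (v.ne_zero_iff.mpr hβ0) (le_antisymm this zero_le)

lemma v_a_eq_one {a : K} (ha : a ^ 2 = α) (hα : v α = 1) : v a = 1 := by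
  have : v a ^ 2 = 1 ^ 2 := by rw [← map_pow, ha, hα, one_pow]
  exact (pow_left_inj two_ne_zero).mp this

theorem cval_triple (h2 : v (2 : K) = 1) {a : K} (ha : a ^ 2 = α) (hα : v α = 1) (hβ1 : v β < 1)
    (hβ0 : β ≠ 0) {P₁ P₂ P₃ : G} (h₁ : M.Mid v P₁) (h₂ : M.Mid v P₂) (h₃ : M.Mid v P₃)
    (hs : P₁ + P₂ + P₃ = 0) :
    Good v β (M.cval v a P₁ * M.cval v a P₂ * M.cval v a P₃) := by
  obtain ⟨l, m, L1, L2, L3, V1, V2, V3⟩ := M.line P₁ P₂ P₃ h₁.1 h₂.1 h₃.1 hs
  have x1 := h₁.X_ne_zero hβ0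
  have x2 := h₂.X_ne_zero hβ0
  have x3 := h₃.X_ne_zero hβ0
  have hm : m ≠ 0 := by
    intro h
    rw [h] at V3
    have : M.X P₁ * M.X P₂ * M.X P₃ ≠ 0 := mul_ne_zero (mul_ne_zero x1 x2) x3
    exact this (by rw [V3]; ring)
  have e23 : m / M.X P₂ * (m / M.X P₃) = M.X P₁ := by
    field_simp
    linear_combination -V3
  have e13 : m / M.X P₁ * (m / M.X P₃) = M.X P₂ := by
    field_simp
    linear_combination -V3
  have e12 : m / M.X P₁ * (m / M.X P₂) = M.X P₃ := by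
    field_simp
    linear_combination -V3
  have T : Triple v β a l (m / M.X P₁) (m / M.X P₂) (m / M.X P₃) :=
    { h2 := h2
      ha := v_a_eq_one ha hα
      hβ1 := hβ1
      ht1 := div_ne_zero hm x1
      ht2 := div_ne_zero hm x2
      ht3 := div_ne_zero hm x3
      hα := by rw [e12, e13, e23, ha]; linear_combination -V1
      hβ := by
        have e : m / M.X P₁ * (m / M.X P₂) * (m / M.X P₃) = m := by
          rw [e12]; field_simp
        rw [e, mul_add, mul_add, mul_add]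
        have f1 : m * (m / M.X P₁) = M.X P₂ * M.X P₃ := by
          field_simp; linear_combination -V3
        have f2 : m * (m / M.X P₂) = M.X P₁ * M.X P₃ := by
          field_simp; linear_combination -V3
        have f3 : m * (m / M.X P₃) = M.X P₁ * M.X P₂ := by
          field_simp; linear_combination -V3
        rw [f1, f2, f3]
        linear_combination V2 }
  have key := T.core (by rw [e23]; exact h₁.2.1) (by rw [e23]; exact h₁.2.2)
    (by rw [e13]; exact h₂.2.1) (by rw [e13]; exact h₂.2.2)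
    (by rw [e12]; exact h₃.2.1) (by rw [e12]; exact h₃.2.2)
  rw [cprod, e23, e13, e12] at key
  have r1 : M.Y P₁ / M.X P₁ = l + m / M.X P₁ := by rw [L1]; field_simp
  have r2 : M.Y P₂ / M.X P₂ = l + m / M.X P₂ := by rw [L2]; field_simp
  have r3 : M.Y P₃ / M.X P₃ = l + m / M.X P₃ := by rw [L3]; field_simp
  rw [cval_of_ne h₁.1, cval_of_ne h₂.1, cval_of_ne h₃.1, r1, r2, r3]
  exact key

lemma Mid.neg {P : G} (h : M.Mid v P) : M.Mid v (-P) :=
  ⟨neg_ne_zero.mpr h.1, by rw [M.X_neg]; exact h.2.1, by rw [M.X_neg]; exact h.2.2⟩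

/-- In the node region the slope `ρ = Y / X` is congruent to `± a`. -/
lemma rho_sign {a : K} (ha : a ^ 2 = α) (hβ0 : β ≠ 0) {P : G} (hP : P ≠ 0)
    (h1 : v (M.X P) < 1) (hb : v β < v (M.X P)) :
    v (M.Y P / M.X P - a) < 1 ∨ v (M.Y P / M.X P + a) < 1 := by
  have hx : M.X P ≠ 0 := by
    intro h0
    rw [h0, map_zero] at hb
    exact absurd hb (not_lt.mpr zero_le)
  apply sign_dichotomy
  have : (M.Y P / M.X P - a) * (M.Y P / M.X P + a) = M.X P + β / M.X P := by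
    have := M.eqn P hP
    field_simp
    linear_combination this - (M.X P) ^ 2 * ha
  rw [this]
  apply v.map_add_lt h1
  rw [map_div₀]
  exact (div_lt_one₀ (zero_lt_iff.mpr (v.ne_zero_iff.mpr hx))).mpr hb

theorem cval_neg (h2 : v (2 : K) = 1) {a : K} (ha : a ^ 2 = α) (hα : v α = 1) (hβ1 : v β < 1)
    (hβ0 : β ≠ 0) {P : G} (h : M.Mid v P) : Good v β (M.cval v a P * M.cval v a (-P)) := by
  have hva := v_a_eq_one ha hα
  have hx := h.X_ne_zero hβ0
  have hvx : v (M.X P) ≠ 0 := v.ne_zero_iff.mpr hx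
  rw [cval_of_ne h.1, cval_of_ne h.neg.1, M.X_neg, M.Y_neg]
  rcases eq_or_lt_of_le h.2.2 with h1 | h1
  · left
    rw [cv_unit h1, cv_unit h1, one_mul]
  rcases eq_or_lt_of_le h.2.1 with hb | hb
  · right; left
    rw [cv_deep hβ1 hb.symm, cv_deep hβ1 hb.symm, pow_two]
  left
  rcases rho_sign ha hβ0 h.1 h1 hb with hs | hs
  · have : v (-M.Y P / M.X P + a) < 1 := by
      have e : -M.Y P / M.X P + a = -(M.Y P / M.X P - a) := by ring
      rw [e, Valuation.map_neg]; exact hs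
    rw [cv_node_pos h1 hb hs, cv_node_neg h2 hva h1 hb this]
    exact mul_inv_cancel₀ hvx
  · have : v (-M.Y P / M.X P - a) < 1 := by
      have e : -M.Y P / M.X P - a = -(M.Y P / M.X P + a) := by ring
      rw [e, Valuation.map_neg]; exact hs
    rw [cv_node_neg h2 hva h1 hb hs, cv_node_pos h1 hb this]
    exact inv_mul_cancel₀ hvx

lemma cval_ne_zero (hβ0 : β ≠ 0) {a : K} {P : G} (h : M.Mid v P) : M.cval v a P ≠ 0 := by
  have hvx : v (M.X P) ≠ 0 := v.ne_zero_iff.mpr (h.X_ne_zero hβ0)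
  have hvb : v β ≠ 0 := v.ne_zero_iff.mpr hβ0
  rw [cval_of_ne h.1, cv]
  split_ifs
  · exact one_ne_zero
  · exact hvb
  · exact hvx
  · exact inv_ne_zero hvx

theorem cval_nsmul (h2 : v (2 : K) = 1) {a : K} (ha : a ^ 2 = α) (hα : v α = 1) (hβ1 : v β < 1)
    (hβ0 : β ≠ 0) {P : G} (hmid : ∀ n : ℕ, n • P = 0 ∨ M.Mid v (n • P)) (hP : P ≠ 0) (n : ℕ) :
    ∃ h, InH v β h ∧ M.cval v a (n • P) = M.cval v a P ^ n * h := by
  have hPm : M.Mid v P := by
    have := hmid 1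
    rw [one_smul] at this
    exact this.resolve_left hP
  have hC : M.cval v a P ≠ 0 := cval_ne_zero hβ0 hPm
  induction n with
  | zero => exact ⟨1, ⟨0, by rw [zpow_zero]⟩, by rw [zero_smul, cval_zero, pow_zero, one_mul]⟩
  | succ n ih =>
    obtain ⟨h, hh, ih⟩ := ih
    have hQm := hmid n
    have hRm := hmid (n + 1)
    rw [succ_nsmul] at hRm ⊢
    set Q := n • P with hQdef
    set C := M.cval v a P with hCdef
    by_cases hQ : Q = 0
    · refine ⟨h, hh, ?_⟩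
      rw [hQ, cval_zero] at ih
      rw [hQ, zero_add, pow_succ, mul_right_comm, ← ih, one_mul]
    by_cases hR : Q + P = 0
    · have hQP : Q = -P := eq_neg_of_add_eq_zero_left hR
      have hk := (cval_neg h2 ha hα hβ1 hβ0 hPm).inH
      rw [← hQP, ih, ← hCdef] at hk
      refine ⟨h * (C * (C ^ n * h))⁻¹, hh.mul hβ0 hk.inv, ?_⟩
      rw [hR, cval_zero]
      have hh0 := hh.ne_zero hβ0
      field_simp
      rw [pow_succ, mul_comm]
    · have hQm' := hQm.resolve_left hQ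
      have hRm' := hRm.resolve_left hR
      have k1 := (cval_triple h2 ha hα hβ1 hβ0 hQm' hPm hRm'.neg (by abel)).inH
      have k2 := (cval_neg h2 ha hα hβ1 hβ0 hRm').inH
      have hnR : M.cval v a (-(Q + P)) ≠ 0 := cval_ne_zero hβ0 hRm'.neg
      have hh0 := hh.ne_zero hβ0
      rw [ih, ← hCdef] at k1
      refine ⟨h * (M.cval v a (Q + P) * M.cval v a (-(Q + P))) *
        (C ^ n * h * C * M.cval v a (-(Q + P)))⁻¹, (hh.mul hβ0 k2).mul hβ0 k1.inv, ?_⟩
      field_simp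
      rw [pow_succ, mul_assoc]

/-- **Torsion points have `X`-coordinate of "rational" valuation.** -/
theorem exists_zpow_of_torsion (h2 : v (2 : K) = 1) {a : K} (ha : a ^ 2 = α) (hα : v α = 1)
    (hβ1 : v β < 1) (hβ0 : β ≠ 0) {P : G} (hmid : ∀ n : ℕ, n • P = 0 ∨ M.Mid v (n • P))
    (hP : P ≠ 0) {p : ℕ} (hp : p ≠ 0) {β₀ : K} (hβ₀ : β = β₀ ^ p) (hpP : p • P = 0) :
    ∃ j : ℤ, v (M.X P) = v β₀ ^ j := by
  obtain ⟨h, ⟨j, rfl⟩, hh⟩ := cval_nsmul h2 ha hα hβ1 hβ0 hmid hP (a := a) p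
  rw [hpP, cval_zero] at hh
  set w := v β₀ with hw
  have hw0 : w ≠ 0 := by
    rw [hw, v.ne_zero_iff]
    rintro rfl
    exact hβ0 (by rw [hβ₀, zero_pow hp])
  have hvb : v β = w ^ p := by rw [hβ₀, map_pow]
  have e1 : (v β ^ 2) ^ j = (w ^ (2 * j)) ^ p := by
    rw [hvb, ← pow_mul, ← zpow_natCast w (p * 2), ← zpow_mul, ← zpow_natCast (w ^ (2 * j)) p,
      ← zpow_mul]
    congr 1
    push_cast
    ring
  have e2 : M.cval v a P ^ p = (w ^ (-(2 * j))) ^ p := by
    have h3 : (w ^ (-(2 * j))) ^ p * (w ^ (2 * j)) ^ p = 1 := by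
      rw [← mul_pow, ← zpow_add₀ hw0]
      simp
    have h4 : (w ^ (2 * j)) ^ p ≠ 0 := pow_ne_zero p (zpow_ne_zero _ hw0)
    rw [e1] at hh
    exact mul_right_cancel₀ h4 (hh.symm.trans h3.symm)
  have e3 : M.cval v a P = w ^ (-(2 * j)) := (pow_left_inj hp).mp e2
  rw [cval_of_ne hP, cv] at e3
  split_ifs at e3 with c1 c2 c3
  · exact ⟨0, by rw [c1, zpow_zero]⟩
  · exact ⟨p, by rw [c2, hvb, zpow_natCast]⟩
  · exact ⟨_, e3⟩
  · exact ⟨2 * j, by rw [← inv_inj, e3, zpow_neg]⟩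

end Model

end Fermat.Agent.S05lib
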