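import Fermat.Agent.S05lib.KerRed

/-!
# Congruent points differ by an element of the kernel of reduction
-/

namespace Fermat.Agent.S05lib

variable {G : Type*} [AddCommGroup G] {K : Type*} [Field K] {α β : K}
  {Γ₀ : Type*} [LinearOrderedCommGroupWithZero Γ₀]

lemma g_one_lt_of_mul_eq {a b c : Γ₀} (h : a * b = c) (hb : b < c) : 1 < a := by
  by_contra hc
  have : a * b ≤ b := mul_le_of_le_one_left' (not_lt.mp hc)
  rw [h] at this
  exact absurd hb (not_lt.mpr this)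

namespace Model

variable {M : Model G K α β} {v : Valuation K Γ₀}

lemma Y_le_one (hα : v α ≤ 1) (hβ : v β ≤ 1) {P : G} (hP : P ≠ 0) (hX : v (M.X P) ≤ 1) :
    v (M.Y P) ≤ 1 := by
  have h : v (M.Y P) ^ 2 ≤ 1 := by
    rw [← map_pow, M.eqn P hP, map_mul]
    apply mul_le_one' hX
    apply v.map_add_le (v.map_add_le _ _) hβ
    · rw [map_pow]; exact pow_le_one' hX 2
    · rw [map_mul]; exact mul_le_one' hα hX
  by_contra hc
  exact absurd (one_lt_pow₀ (not_le.mp hc) two_ne_zero) (not_lt.mpr h)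

/-- Data of the chord through `Q'` and `-Q`. -/
lemma sub_line {Q Q' : G} (hQ : Q ≠ 0) (hQ' : Q' ≠ 0) (hR : Q' - Q ≠ 0) :
    ∃ l : K, l * (M.X Q' - M.X Q) = M.Y Q' + M.Y Q ∧
      l * (M.Y Q' - M.Y Q) = M.X Q' ^ 2 + M.X Q' * M.X Q + M.X Q ^ 2 + α * (M.X Q' + M.X Q) + β ∧
      M.X (Q' - Q) = l ^ 2 - α - M.X Q' - M.X Q := by
  obtain ⟨l, m, L1, L2, -, V1, V2, -⟩ := M.line Q' (-Q) (-(Q' - Q)) hQ' (neg_ne_zero.mpr hQ)
    (neg_ne_zero.mpr hR) (by abel)
  rw [M.X_neg, M.X_neg] at V1 V2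
  rw [M.X_neg, M.Y_neg] at L2
  refine ⟨l, ?_, ?_, ?_⟩
  · linear_combination L2 - L1
  · rw [L1]
    have hY : M.Y Q = -(l * M.X Q + m) := by linear_combination -L2
    rw [hY]
    linear_combination (-(M.X Q' + M.X Q)) * V1 + V2
  · linear_combination V1

lemma E1_of_slope (hα : v α ≤ 1) {x x' l X3 : K} (hx : v x ≤ 1) (hx' : v x' ≤ 1) (hl : 1 < v l)
    (h : X3 = l ^ 2 - α - x' - x) : 1 < v X3 := by
  have h1 : 1 < v (l ^ 2) := by rw [map_pow]; exact one_lt_pow₀ hl two_ne_zero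
  have h2 : v (α + x' + x) ≤ 1 := v.map_add_le (v.map_add_le hα hx') hx
  have : X3 = l ^ 2 - (α + x' + x) := by rw [h]; ring
  rw [this, v.map_sub_eq_of_lt_left (lt_of_le_of_lt h2 h1)]
  exact h1

/-- Two integral points with the same nonsingular reduction differ by an element of the kernel of
reduction. -/
theorem E1_sub_of_congr (hα : v α ≤ 1) (h2 : v (2 : K) = 1) {Q Q' : G} (hQ : Q ≠ 0)
    (hQ' : Q' ≠ 0) (hX : v (M.X Q) ≤ 1) (hXX : v (M.X Q' - M.X Q) < 1)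
    (hYY : v (M.Y Q' - M.Y Q) < 1)
    (hns : v (M.Y Q) = 1 ∨ v (3 * M.X Q ^ 2 + 2 * α * M.X Q + β) = 1) :
    M.E1 v (Q' - Q) := by
  by_cases hR : Q' - Q = 0
  · exact Or.inl hR
  right
  obtain ⟨l, hl1, hl2, hl3⟩ := M.sub_line hQ hQ' hR
  have hX' : v (M.X Q') ≤ 1 := by
    have : M.X Q' = (M.X Q' - M.X Q) + M.X Q := by ring
    rw [this]
    exact v.map_add_le hXX.le hX
  refine E1_of_slope hα hX hX' ?_ hl3
  rcases hns with hY | hf
  · have h3 : v (M.Y Q' + M.Y Q) = 1 := by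
      have : M.Y Q' + M.Y Q = 2 * M.Y Q + (M.Y Q' - M.Y Q) := by ring
      rw [this, Valuation.map_add_eq_of_lt_left]
      · rw [map_mul, h2, hY, one_mul]
      · rw [map_mul, h2, hY, one_mul]; exact hYY
    have h4 := congrArg v hl1
    rw [map_mul, h3] at h4
    exact g_one_lt_of_mul_eq h4 hXX
  · have h3 : v (M.X Q' ^ 2 + M.X Q' * M.X Q + M.X Q ^ 2 + α * (M.X Q' + M.X Q) + β) = 1 := by
      have : M.X Q' ^ 2 + M.X Q' * M.X Q + M.X Q ^ 2 + α * (M.X Q' + M.X Q) + β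
          = (3 * M.X Q ^ 2 + 2 * α * M.X Q + β)
            + (M.X Q' - M.X Q) * (M.X Q' + 2 * M.X Q + α) := by ring
      have h5 : v ((M.X Q' - M.X Q) * (M.X Q' + 2 * M.X Q + α)) < 1 := by
        rw [map_mul]
        apply g_mul_lt_one_of_lt_of_le hXX
        apply v.map_add_le (v.map_add_le hX' _) hα
        rw [map_mul, h2, one_mul]; exact hX
      rw [this, Valuation.map_add_eq_of_lt_left]
      · exact hf
      · rw [hf]; exact h5
    have h4 := congrArg v hl2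
    rw [map_mul, h3] at h4
    exact g_one_lt_of_mul_eq h4 hYY

/-- Relative version, for points reducing to the node. -/
theorem E1_sub_of_rel (hα : v α ≤ 1) (h2 : v (2 : K) = 1) {Q Q' : G} (hQ : Q ≠ 0)
    (hQ' : Q' ≠ 0) (hX : v (M.X Q) ≤ 1) (hXX : v (M.X Q' - M.X Q) < v (M.X Q))
    (hYX : v (M.Y Q) = v (M.X Q)) (hYY : v (M.Y Q' - M.Y Q) < v (M.Y Q)) :
    M.E1 v (Q' - Q) := by
  by_cases hR : Q' - Q = 0
  · exact Or.inl hR
  right
  obtain ⟨l, hl1, -, hl3⟩ := M.sub_line hQ hQ' hR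
  have hX' : v (M.X Q') ≤ 1 := by
    have : M.X Q' = (M.X Q' - M.X Q) + M.X Q := by ring
    rw [this]
    exact v.map_add_le (hXX.le.trans hX) hX
  refine E1_of_slope hα hX hX' ?_ hl3
  have h3 : v (M.Y Q' + M.Y Q) = v (M.X Q) := by
    have : M.Y Q' + M.Y Q = 2 * M.Y Q + (M.Y Q' - M.Y Q) := by ring
    rw [this, Valuation.map_add_eq_of_lt_left]
    · rw [map_mul, h2, hYX, one_mul]
    · rw [map_mul, h2, one_mul]; exact hYY
  have h4 := congrArg v hl1
  rw [map_mul, h3] at h4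
  exact g_one_lt_of_mul_eq h4 hXX

end Model

end Fermat.Agent.S05lib
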