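import Fermat.Agent.S05lib.Congr

/-!
# The component function on collinear triples: the algebraic core
-/

namespace Fermat.Agent.S05lib

variable {K : Type*} [Field K] {Γ₀ : Type*} [LinearOrderedCommGroupWithZero Γ₀]

open Classical in
/-- The component value of a point with coordinates `X`, `ρ = Y / X`. -/
noncomputable def cv (v : Valuation K Γ₀) (β a X ρ : K) : Γ₀ :=
  if v X = 1 then 1 else if v X = v β then v β else if v (ρ - a) < 1 then v X else (v X)⁻¹

variable {v : Valuation K Γ₀} {β a : K}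

lemma cv_unit {X ρ : K} (h : v X = 1) : cv v β a X ρ = 1 := by
  simp [cv, h]

lemma cv_deep {X ρ : K} (hβ : v β < 1) (h : v X = v β) : cv v β a X ρ = v β := by
  have : v X ≠ 1 := by rw [h]; exact hβ.ne
  unfold cv
  rw [if_neg this, if_pos h]

lemma cv_pos {X ρ : K} (h1 : v X ≠ 1) (h2 : v X ≠ v β) (h : v (ρ - a) < 1) :
    cv v β a X ρ = v X := by
  simp [cv, h1, h2, h]

lemma cv_neg {X ρ : K} (h1 : v X ≠ 1) (h2 : v X ≠ v β) (h : ¬ v (ρ - a) < 1) :
    cv v β a X ρ = (v X)⁻¹ := by
  simp only [cv, h1, h2, h, if_false]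

section sign

lemma v_add_of_sub_lt (h2 : v (2 : K) = 1) (ha : v a = 1) {x : K} (h : v (x - a) < 1) :
    v (x + a) = 1 := by
  have e : x + a = 2 * a + (x - a) := by ring
  have h3 : v (2 * a) = 1 := by rw [map_mul, h2, ha, one_mul]
  rw [e, v.map_add_eq_of_lt_left (by rw [h3]; exact h), h3]

lemma v_sub_of_add_lt (h2 : v (2 : K) = 1) (ha : v a = 1) {x : K} (h : v (x + a) < 1) :
    v (x - a) = 1 := by
  have e : x - a = -(2 * a) + (x + a) := by ring
  have h3 : v (-(2 * a)) = 1 := by rw [Valuation.map_neg, map_mul, h2, ha, one_mul]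
  rw [e, v.map_add_eq_of_lt_left (by rw [h3]; exact h), h3]

lemma not_sub_lt_of_add_lt (h2 : v (2 : K) = 1) (ha : v a = 1) {x : K} (h : v (x + a) < 1) :
    ¬ v (x - a) < 1 := by
  rw [v_sub_of_add_lt h2 ha h]
  exact lt_irrefl _

lemma sign_dichotomy {x : K} (h : v ((x - a) * (x + a)) < 1) :
    v (x - a) < 1 ∨ v (x + a) < 1 := by
  by_contra hc
  push Not at hc
  rw [map_mul] at h
  exact absurd (one_le_mul_of_one_le_of_one_le hc.1 hc.2) (not_le.mpr h)

end sign

/-- Parametrisation of a collinear triple. -/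
structure Triple (v : Valuation K Γ₀) (β a l t1 t2 t3 : K) : Prop where
  h2 : v (2 : K) = 1
  ha : v a = 1
  hβ1 : v β < 1
  ht1 : t1 ≠ 0
  ht2 : t2 ≠ 0
  ht3 : t3 ≠ 0
  hα : l ^ 2 - (t1 * t2 + t1 * t3 + t2 * t3) = a ^ 2
  hβ : t1 * t2 * t3 * (t1 + t2 + t3 + 2 * l) = β

/-- The product of the three component values. -/
noncomputable def cprod (v : Valuation K Γ₀) (β a l t1 t2 t3 : K) : Γ₀ :=
  cv v β a (t2 * t3) (l + t1) * cv v β a (t1 * t3) (l + t2) * cv v β a (t1 * t2) (l + t3)

/-- The allowed values for the product. -/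
def Good (v : Valuation K Γ₀) (β : K) (g : Γ₀) : Prop :=
  g = 1 ∨ g = v β ^ 2 ∨ g = (v β ^ 2)⁻¹

namespace Triple

variable {l t1 t2 t3 : K}

lemma swap12 (T : Triple v β a l t1 t2 t3) : Triple v β a l t2 t1 t3 :=
  { T with
    ht1 := T.ht2
    ht2 := T.ht1
    hα := by rw [← T.hα]; ring
    hβ := by rw [← T.hβ]; ring }

lemma swap23 (T : Triple v β a l t1 t2 t3) : Triple v β a l t1 t3 t2 :=
  { T with
    ht2 := T.ht3
    ht3 := T.ht2
    hα := by rw [← T.hα]; ring
    hβ := by rw [← T.hβ]; ring }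

end Triple

lemma cprod_swap12 (l t1 t2 t3 : K) : cprod v β a l t2 t1 t3 = cprod v β a l t1 t2 t3 := by
  simp only [cprod, mul_comm t2 t1]
  ac_rfl

lemma cprod_swap23 (l t1 t2 t3 : K) : cprod v β a l t1 t3 t2 = cprod v β a l t1 t2 t3 := by
  simp only [cprod, mul_comm t3 t2]
  exact mul_right_comm _ _ _

lemma cv_node_pos {X ρ : K} (hX1 : v X < 1) (hXb : v β < v X) (h : v (ρ - a) < 1) :
    cv v β a X ρ = v X :=
  cv_pos hX1.ne hXb.ne' h

lemma cv_node_neg (h2 : v (2 : K) = 1) (ha : v a = 1) {X ρ : K} (hX1 : v X < 1) (hXb : v β < v X)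
    (h : v (ρ + a) < 1) : cv v β a X ρ = (v X)⁻¹ :=
  cv_neg hX1.ne hXb.ne' (not_sub_lt_of_add_lt h2 ha h)

lemma g_mul_lt_right {x y : Γ₀} (hx : x < 1) (hy : 0 < y) : x * y < y := by
  calc x * y < 1 * y := mul_lt_mul_of_pos_right hx hy
    _ = y := one_mul y

lemma g_mul_lt_left {x y : Γ₀} (hx : x < 1) (hy : 0 < y) : y * x < y := by
  rw [mul_comm]; exact g_mul_lt_right hx hy

namespace Triple

variable {l t1 t2 t3 : K}

lemma pos1 (T : Triple v β a l t1 t2 t3) : 0 < v t1 := zero_lt_iff.mpr (v.ne_zero_iff.mpr T.ht1)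
lemma pos2 (T : Triple v β a l t1 t2 t3) : 0 < v t2 := zero_lt_iff.mpr (v.ne_zero_iff.mpr T.ht2)
lemma pos3 (T : Triple v β a l t1 t2 t3) : 0 < v t3 := zero_lt_iff.mpr (v.ne_zero_iff.mpr T.ht3)

lemma vβ (T : Triple v β a l t1 t2 t3) :
    v β = v t1 * v t2 * v t3 * v (t1 + t2 + t3 + 2 * l) := by
  rw [← T.hβ, map_mul, map_mul, map_mul]

/-- If the second elementary symmetric function is small then `l ≡ ± a`. -/
lemma l_sign (T : Triple v β a l t1 t2 t3) (he2 : v (t1 * t2 + t1 * t3 + t2 * t3) < 1) :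
    v (l - a) < 1 ∨ v (l + a) < 1 := by
  apply sign_dichotomy
  have : (l - a) * (l + a) = t1 * t2 + t1 * t3 + t2 * t3 := by linear_combination T.hα
  rw [this]; exact he2

lemma vl_of_sign (T : Triple v β a l t1 t2 t3) (hl : v (l - a) < 1 ∨ v (l + a) < 1) :
    v l = 1 := by
  rcases hl with h | h
  · have : l = a + (l - a) := by ring
    rw [this, v.map_add_eq_of_lt_left (by rw [T.ha]; exact h), T.ha]
  · have : l = -a + (l + a) := by ring
    rw [this, v.map_add_eq_of_lt_left (by rw [Valuation.map_neg, T.ha]; exact h),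
      Valuation.map_neg, T.ha]

lemma caseA (T : Triple v β a l t1 t2 t3) (h1 : v t1 < 1) (h2 : v t2 < 1) (h3 : v t3 < 1) :
    Good v β (cprod v β a l t1 t2 t3) := by
  have p1 := T.pos1
  have p2 := T.pos2
  have p3 := T.pos3
  have he2 : v (t1 * t2 + t1 * t3 + t2 * t3) < 1 := by
    apply v.map_add_lt (v.map_add_lt _ _) _ <;> rw [map_mul]
    · exact g_mul_lt_one_of_lt_of_le h1 h2.le
    · exact g_mul_lt_one_of_lt_of_le h1 h3.le
    · exact g_mul_lt_one_of_lt_of_le h2 h3.le
  have hl := T.l_sign he2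
  have hvl := T.vl_of_sign hl
  have hs : v (t1 + t2 + t3 + 2 * l) = 1 := by
    have h2l : v (2 * l) = 1 := by rw [map_mul, T.h2, hvl, one_mul]
    rw [v.map_add_eq_of_lt_right (by rw [h2l]; exact v.map_add_lt (v.map_add_lt h1 h2) h3), h2l]
  have hb : v β = v t1 * v t2 * v t3 := by rw [T.vβ, hs, mul_one]
  have X1lt : v (t2 * t3) < 1 := by rw [map_mul]; exact g_mul_lt_one_of_lt_of_le h2 h3.le
  have X2lt : v (t1 * t3) < 1 := by rw [map_mul]; exact g_mul_lt_one_of_lt_of_le h1 h3.le
  have X3lt : v (t1 * t2) < 1 := by rw [map_mul]; exact g_mul_lt_one_of_lt_of_le h1 h2.le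
  have X1b : v β < v (t2 * t3) := by
    rw [hb, map_mul, mul_assoc]; exact g_mul_lt_right h1 (mul_pos p2 p3)
  have X2b : v β < v (t1 * t3) := by
    rw [hb, map_mul, mul_right_comm]; exact g_mul_lt_left h2 (mul_pos p1 p3)
  have X3b : v β < v (t1 * t2) := by
    rw [hb, map_mul]; exact g_mul_lt_left h3 (mul_pos p1 p2)
  rcases hl with h | h
  · have r1 : v (l + t1 - a) < 1 := by
      have : l + t1 - a = (l - a) + t1 := by ring
      rw [this]; exact v.map_add_lt h h1
    have r2 : v (l + t2 - a) < 1 := by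
      have : l + t2 - a = (l - a) + t2 := by ring
      rw [this]; exact v.map_add_lt h h2
    have r3 : v (l + t3 - a) < 1 := by
      have : l + t3 - a = (l - a) + t3 := by ring
      rw [this]; exact v.map_add_lt h h3
    right; left
    rw [cprod, cv_node_pos X1lt X1b r1, cv_node_pos X2lt X2b r2, cv_node_pos X3lt X3b r3, hb]
    simp only [map_mul]
    field_simp
  · have r1 : v (l + t1 + a) < 1 := by
      have : l + t1 + a = (l + a) + t1 := by ring
      rw [this]; exact v.map_add_lt h h1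
    have r2 : v (l + t2 + a) < 1 := by
      have : l + t2 + a = (l + a) + t2 := by ring
      rw [this]; exact v.map_add_lt h h2
    have r3 : v (l + t3 + a) < 1 := by
      have : l + t3 + a = (l + a) + t3 := by ring
      rw [this]; exact v.map_add_lt h h3
    right; right
    rw [cprod, cv_node_neg T.h2 T.ha X1lt X1b r1, cv_node_neg T.h2 T.ha X2lt X2b r2,
      cv_node_neg T.h2 T.ha X3lt X3b r3, hb]
    simp only [map_mul]
    have q1 := p1.ne'
    have q2 := p2.ne'
    have q3 := p3.ne'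
    field_simp

lemma caseB (T : Triple v β a l t1 t2 t3) (h1 : v t1 = 1) (h2 : v t2 < 1) (h3 : v t3 < 1) :
    Good v β (cprod v β a l t1 t2 t3) := by
  have p2 := T.pos2
  have p3 := T.pos3
  have q2 := p2.ne'
  have q3 := p3.ne'
  have he2 : v (t1 * t2 + t1 * t3 + t2 * t3) < 1 := by
    apply v.map_add_lt (v.map_add_lt _ _) _ <;> rw [map_mul]
    · rw [h1, one_mul]; exact h2
    · rw [h1, one_mul]; exact h3
    · exact g_mul_lt_one_of_lt_of_le h2 h3.le
  have hl := T.l_sign he2
  have hvl := T.vl_of_sign hl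
  set s := t1 + t2 + t3 + 2 * l with hsdef
  have hsle : v s ≤ 1 := by
    apply v.map_add_le (v.map_add_le (v.map_add_le h1.le h2.le) h3.le)
    rw [map_mul, T.h2, hvl, one_mul]
  have hb : v β = v t2 * v t3 * v s := by rw [T.vβ, h1, one_mul]
  have X1v : v (t2 * t3) = v t2 * v t3 := map_mul _ _ _
  have X2v : v (t1 * t3) = v t3 := by rw [map_mul, h1, one_mul]
  have X3v : v (t1 * t2) = v t2 := by rw [map_mul, h1, one_mul]
  have X1lt : v (t2 * t3) < 1 := by rw [X1v]; exact g_mul_lt_one_of_lt_of_le h2 h3.le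
  have X2lt : v (t1 * t3) < 1 := by rw [X2v]; exact h3
  have X3lt : v (t1 * t2) < 1 := by rw [X3v]; exact h2
  have hble : v β ≤ v t2 * v t3 := by rw [hb]; exact mul_le_of_le_one_right' hsle
  have X2b : v β < v (t1 * t3) := by
    rw [X2v]; exact lt_of_le_of_lt hble (g_mul_lt_right h2 p3)
  have X3b : v β < v (t1 * t2) := by
    rw [X3v]; exact lt_of_le_of_lt hble (g_mul_lt_left h3 p2)
  by_cases hs : v s = 1
  · have hX1 : v (t2 * t3) = v β := by rw [hb, hs, mul_one, X1v]
    rcases hl with h | h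
    · have r2 : v (l + t2 - a) < 1 := by
        have : l + t2 - a = (l - a) + t2 := by ring
        rw [this]; exact v.map_add_lt h h2
      have r3 : v (l + t3 - a) < 1 := by
        have : l + t3 - a = (l - a) + t3 := by ring
        rw [this]; exact v.map_add_lt h h3
      right; left
      rw [cprod, cv_deep T.hβ1 hX1, cv_node_pos X2lt X2b r2, cv_node_pos X3lt X3b r3, X2v, X3v,
        hb, hs]
      field_simp
    · have r2 : v (l + t2 + a) < 1 := by
        have : l + t2 + a = (l + a) + t2 := by ring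
        rw [this]; exact v.map_add_lt h h2
      have r3 : v (l + t3 + a) < 1 := by
        have : l + t3 + a = (l + a) + t3 := by ring
        rw [this]; exact v.map_add_lt h h3
      left
      rw [cprod, cv_deep T.hβ1 hX1, cv_node_neg T.h2 T.ha X2lt X2b r2,
        cv_node_neg T.h2 T.ha X3lt X3b r3, X2v, X3v, hb, hs]
      field_simp
  · have hs' : v s < 1 := lt_of_le_of_ne hsle hs
    have X1b : v β < v (t2 * t3) := by
      rw [hb, X1v]; exact g_mul_lt_left hs' (mul_pos p2 p3)
    left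
    rcases hl with h | h
    · have r1 : v (l + t1 + a) < 1 := by
        have : l + t1 + a = s - (l - a) - t2 - t3 := by rw [hsdef]; ring
        rw [this]; exact v.map_sub_lt (v.map_sub_lt (v.map_sub_lt hs' h) h2) h3
      have r2 : v (l + t2 - a) < 1 := by
        have : l + t2 - a = (l - a) + t2 := by ring
        rw [this]; exact v.map_add_lt h h2
      have r3 : v (l + t3 - a) < 1 := by
        have : l + t3 - a = (l - a) + t3 := by ring
        rw [this]; exact v.map_add_lt h h3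
      rw [cprod, cv_node_neg T.h2 T.ha X1lt X1b r1, cv_node_pos X2lt X2b r2,
        cv_node_pos X3lt X3b r3, X1v, X2v, X3v]
      field_simp
    · have r1 : v (l + t1 - a) < 1 := by
        have : l + t1 - a = s - (l + a) - t2 - t3 := by rw [hsdef]; ring
        rw [this]; exact v.map_sub_lt (v.map_sub_lt (v.map_sub_lt hs' h) h2) h3
      have r2 : v (l + t2 + a) < 1 := by
        have : l + t2 + a = (l + a) + t2 := by ring
        rw [this]; exact v.map_add_lt h h2
      have r3 : v (l + t3 + a) < 1 := by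
        have : l + t3 + a = (l + a) + t3 := by ring
        rw [this]; exact v.map_add_lt h h3
      rw [cprod, cv_node_pos X1lt X1b r1, cv_node_neg T.h2 T.ha X2lt X2b r2,
        cv_node_neg T.h2 T.ha X3lt X3b r3, X1v, X2v, X3v]
      field_simp

lemma caseC (T : Triple v β a l t1 t2 t3) (h1 : v t1 = 1) (h2 : v t2 = 1) (h3 : v t3 < 1) :
    Good v β (cprod v β a l t1 t2 t3) := by
  have p3 := T.pos3
  have q3 := p3.ne'
  have hvl : v l ≤ 1 := by
    have h : v l ^ 2 ≤ 1 := by
      have : l ^ 2 = a ^ 2 + (t1 * t2 + t1 * t3 + t2 * t3) := by linear_combination T.hα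
      rw [← map_pow, this]
      apply v.map_add_le
      · rw [map_pow, T.ha, one_pow]
      · apply v.map_add_le (v.map_add_le _ _) _ <;> rw [map_mul]
        · rw [h1, h2, one_mul]
        · rw [h1, one_mul]; exact h3.le
        · rw [h2, one_mul]; exact h3.le
    by_contra hc
    exact absurd (one_lt_pow₀ (not_le.mp hc) two_ne_zero) (not_lt.mpr h)
  set s := t1 + t2 + t3 + 2 * l with hsdef
  have hsle : v s ≤ 1 := by
    apply v.map_add_le (v.map_add_le (v.map_add_le h1.le h2.le) h3.le)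
    rw [map_mul, T.h2, one_mul]; exact hvl
  have hb : v β = v t3 * v s := by rw [T.vβ, h1, h2, one_mul, one_mul]
  have X1v : v (t2 * t3) = v t3 := by rw [map_mul, h2, one_mul]
  have X2v : v (t1 * t3) = v t3 := by rw [map_mul, h1, one_mul]
  have X3v : v (t1 * t2) = 1 := by rw [map_mul, h1, h2, one_mul]
  by_cases hs : v s = 1
  · have hX1 : v (t2 * t3) = v β := by rw [hb, hs, mul_one, X1v]
    have hX2 : v (t1 * t3) = v β := by rw [hb, hs, mul_one, X2v]
    right; left
    rw [cprod, cv_deep T.hβ1 hX1, cv_deep T.hβ1 hX2, cv_unit X3v, mul_one, pow_two]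
  · have hs' : v s < 1 := lt_of_le_of_ne hsle hs
    have X1lt : v (t2 * t3) < 1 := by rw [X1v]; exact h3
    have X2lt : v (t1 * t3) < 1 := by rw [X2v]; exact h3
    have X1b : v β < v (t2 * t3) := by rw [hb, X1v]; exact g_mul_lt_left hs' p3
    have X2b : v β < v (t1 * t3) := by rw [hb, X2v]; exact g_mul_lt_left hs' p3
    have hd : v (l + t1 - a) < 1 ∨ v (l + t1 + a) < 1 := by
      apply sign_dichotomy
      have : (l + t1 - a) * (l + t1 + a) = t1 * s + t2 * t3 := by
        rw [hsdef]; linear_combination T.hα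
      rw [this]
      apply v.map_add_lt
      · rw [map_mul, h1, one_mul]; exact hs'
      · exact X1lt
    left
    rcases hd with h | h
    · have r2 : v (l + t2 + a) < 1 := by
        have : l + t2 + a = s - t3 - (l + t1 - a) := by rw [hsdef]; ring
        rw [this]; exact v.map_sub_lt (v.map_sub_lt hs' h3) h
      rw [cprod, cv_node_pos X1lt X1b h, cv_node_neg T.h2 T.ha X2lt X2b r2, cv_unit X3v, X1v, X2v]
      field_simp
    · have r2 : v (l + t2 - a) < 1 := by
        have : l + t2 - a = s - t3 - (l + t1 + a) := by rw [hsdef]; ring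
        rw [this]; exact v.map_sub_lt (v.map_sub_lt hs' h3) h
      rw [cprod, cv_node_neg T.h2 T.ha X1lt X1b h, cv_node_pos X2lt X2b r2, cv_unit X3v, X1v, X2v]
      field_simp

lemma caseD (h1 : v t1 = 1) (h2 : v t2 = 1) (h3 : v t3 = 1) :
    Good v β (cprod v β a l t1 t2 t3) := by
  left
  rw [cprod, cv_unit (by rw [map_mul, h2, h3, one_mul]), cv_unit (by rw [map_mul, h1, h3, one_mul]),
    cv_unit (by rw [map_mul, h1, h2, one_mul]), one_mul, one_mul]

/-- integrality of `ρ₁`. -/
lemma rho_le_one (T : Triple v β a l t1 t2 t3) (hb1 : v β ≤ v (t2 * t3)) (hX1 : v (t2 * t3) ≤ 1) :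
    v (l + t1) ≤ 1 := by
  have hpos : 0 < v (t2 * t3) := by rw [map_mul]; exact mul_pos T.pos2 T.pos3
  have h1 : v (t1 * (t1 + t2 + t3 + 2 * l)) ≤ 1 := by
    have e : β = (t2 * t3) * (t1 * (t1 + t2 + t3 + 2 * l)) := by rw [← T.hβ]; ring
    rw [e, map_mul] at hb1
    by_contra hc
    have := mul_lt_mul_of_pos_left (not_le.mp hc) hpos
    rw [mul_one] at this
    exact absurd hb1 (not_le.mpr this)
  have h : v (l + t1) ^ 2 ≤ 1 := by
    have e : (l + t1) ^ 2 = t2 * t3 + a ^ 2 + t1 * (t1 + t2 + t3 + 2 * l) := by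
      linear_combination T.hα
    rw [← map_pow, e]
    apply v.map_add_le (v.map_add_le hX1 _) h1
    rw [map_pow, T.ha, one_pow]
  by_contra hc
  exact absurd (one_lt_pow₀ (not_le.mp hc) two_ne_zero) (not_lt.mpr h)

lemma tau_le_one (T : Triple v β a l t1 t2 t3) (hb1 : v β ≤ v (t2 * t3)) (hX1 : v (t2 * t3) ≤ 1)
    (hb2 : v β ≤ v (t1 * t3)) (hX2 : v (t1 * t3) ≤ 1) (hX3 : v (t1 * t2) ≤ 1) : v t1 ≤ 1 := by
  by_contra hc
  have hc' : 1 < v t1 := not_le.mp hc
  have h2 : v t2 < 1 := by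
    by_contra h
    rw [map_mul] at hX3
    have : 1 < v t1 * v t2 := one_lt_mul_of_lt_of_le' hc' (not_lt.mp h)
    exact absurd hX3 (not_le.mpr this)
  have r1 := T.rho_le_one hb1 hX1
  have r2 := T.swap12.rho_le_one hb2 hX2
  have hl : v l = v t1 := by
    have : l = (l + t1) - t1 := by ring
    rw [this, v.map_sub_eq_of_lt_right (lt_of_le_of_lt r1 hc')]
  have : v (l + t2) = v t1 := by
    rw [v.map_add_eq_of_lt_left (by rw [hl]; exact h2.trans hc'), hl]
  rw [this] at r2
  exact hc r2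

/-- **The component function is additive on collinear triples of bounded points.** -/
theorem core (T : Triple v β a l t1 t2 t3) (hb1 : v β ≤ v (t2 * t3)) (hX1 : v (t2 * t3) ≤ 1)
    (hb2 : v β ≤ v (t1 * t3)) (hX2 : v (t1 * t3) ≤ 1) (hb3 : v β ≤ v (t1 * t2))
    (hX3 : v (t1 * t2) ≤ 1) : Good v β (cprod v β a l t1 t2 t3) := by
  have k1 : v t1 ≤ 1 := T.tau_le_one hb1 hX1 hb2 hX2 hX3
  have k2 : v t2 ≤ 1 := T.swap12.tau_le_one hb2 hX2 hb1 hX1 (by rwa [mul_comm])
  have k3 : v t3 ≤ 1 := T.swap23.swap12.tau_le_one hb3 hX3 (by rwa [mul_comm]) (by rwa [mul_comm])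
    (by rwa [mul_comm])
  rcases lt_or_eq_of_le k1 with h1 | h1 <;> rcases lt_or_eq_of_le k2 with h2 | h2 <;>
    rcases lt_or_eq_of_le k3 with h3 | h3
  · exact T.caseA h1 h2 h3
  · rw [← cprod_swap23, ← cprod_swap12]
    exact T.swap23.swap12.caseB h3 h1 h2
  · rw [← cprod_swap12]
    exact T.swap12.caseB h2 h1 h3
  · rw [← cprod_swap12, ← cprod_swap23]
    exact T.swap12.swap23.caseC h2 h3 h1
  · exact T.caseB h1 h2 h3
  · rw [← cprod_swap23]
    exact T.swap23.caseC h1 h3 h2
  · exact T.caseC h1 h2 h3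
  · exact caseD h1 h2 h3

end Triple

end Fermat.Agent.S05lib
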