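import Fermat.Agent.S05lib.Comp

/-!
# Inertia acts trivially on prime-to-residue-characteristic torsion (abstract form)
-/

namespace Fermat.Agent.S05lib

variable {G : Type*} [AddCommGroup G] {K : Type*} [Field K] {α β : K}
variable {Γ₀ : Type*} [LinearOrderedCommGroupWithZero Γ₀]

namespace Model

/-- A pair of compatible automorphisms of the field and of the group of points, which acts
trivially on the residue field. -/
structure Inert (M : Model G K α β) (v : Valuation K Γ₀) (σK : K →+* K) (σG : G →+ G) : Prop where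
  X_map : ∀ P, P ≠ 0 → M.X (σG P) = σK (M.X P)
  Y_map : ∀ P, P ≠ 0 → M.Y (σG P) = σK (M.Y P)
  ne_zero : ∀ P, P ≠ 0 → σG P ≠ 0
  v_sub : ∀ x, v x ≤ 1 → v (σK x - x) < 1

variable {M : Model G K α β} {v : Valuation K Γ₀} {σK : K →+* K} {σG : G →+ G}

lemma v_four (h2 : v (2 : K) = 1) : v (4 : K) = 1 := by
  have : (4 : K) = 2 * 2 := by norm_num
  rw [this, map_mul, h2, one_mul]

lemma nonsing (h2 : v (2 : K) = 1) (hD : v (α ^ 2 - 4 * β) = 1) {P : G}
    (hP : P ≠ 0) (hX : v (M.X P) = 1) (hY : v (M.Y P) < 1) :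
    v (3 * M.X P ^ 2 + 2 * α * M.X P + β) = 1 := by
  have he := M.eqn P hP
  set x := M.X P
  set y := M.Y P
  have hg : v (x ^ 2 + α * x + β) < 1 := by
    have := congrArg v he
    rw [map_mul, hX, one_mul, map_pow] at this
    rw [← this]
    exact pow_lt_one₀ zero_le hY two_ne_zero
  have h1 : v ((2 * x + α) ^ 2) = 1 := by
    have : (2 * x + α) ^ 2 = (α ^ 2 - 4 * β) + 4 * (x ^ 2 + α * x + β) := by ring
    rw [this, Valuation.map_add_eq_of_lt_left, hD]
    rw [hD, map_mul, v_four h2, one_mul]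
    exact hg
  have h3 : v (2 * x + α) = 1 := by
    rw [map_pow] at h1
    exact (pow_left_inj two_ne_zero).mp (by rw [h1, one_pow])
  have : 3 * x ^ 2 + 2 * α * x + β = x * (2 * x + α) + (x ^ 2 + α * x + β) := by ring
  rw [this, Valuation.map_add_eq_of_lt_left]
  · rw [map_mul, hX, h3, one_mul]
  · rw [map_mul, hX, h3, one_mul]
    exact hg

/-- Points with unit `X`-coordinate are moved by inertia inside the kernel of reduction. -/
lemma Inert.E1_of_unit (hσ : M.Inert v σK σG) (hα : v α ≤ 1) (hβ : v β ≤ 1) (h2 : v (2 : K) = 1)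
    (hD : v (α ^ 2 - 4 * β) = 1) {Q : G} (hQ : Q ≠ 0) (hX : v (M.X Q) = 1) :
    M.E1 v (σG Q - Q) := by
  have hY : v (M.Y Q) ≤ 1 := Y_le_one hα hβ hQ hX.le
  apply E1_sub_of_congr hα h2 hQ (hσ.ne_zero Q hQ) hX.le
  · rw [hσ.X_map Q hQ]
    exact hσ.v_sub _ hX.le
  · rw [hσ.Y_map Q hQ]
    exact hσ.v_sub _ hY
  · rcases hY.lt_or_eq with h | h
    · exact Or.inr (nonsing h2 hD hQ hX h)
    · exact Or.inl h

lemma Inert.eq_of_E1 (hα : v α ≤ 1) (hβ : v β ≤ 1) (h2 : v (2 : K) = 1)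
    {P : G} {p : ℕ} (hp : v (p : K) = 1) (hpP : p • P = 0) (hE : M.E1 v (σG P - P)) :
    σG P = P := by
  have h : p • (σG P - P) = 0 := by
    rw [smul_sub, ← map_nsmul, hpP, map_zero, sub_zero]
  exact sub_eq_zero.mp (eq_zero_of_E1_of_nsmul_eq_zero hα hβ (v_ne_zero_of_eq_one h2) hE hp h)

lemma X_le_one_of_torsion (hα : v α ≤ 1) (hβ : v β ≤ 1) (h2 : v (2 : K) = 1)
    {P : G} (hP : P ≠ 0) {p : ℕ} (hp : v (p : K) = 1) (hpP : p • P = 0) : v (M.X P) ≤ 1 := by
  by_contra hc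
  exact hP (eq_zero_of_E1_of_nsmul_eq_zero hα hβ (v_ne_zero_of_eq_one h2)
    (Or.inr (not_le.mp hc)) hp hpP)

/-- **Good reduction**: inertia acts trivially on `p`-torsion. -/
theorem Inert.fix_of_good (hσ : M.Inert v σK σG) (hα : v α ≤ 1) (hβ : v β = 1)
    (h2 : v (2 : K) = 1) (hD : v (α ^ 2 - 4 * β) = 1) {P : G} {p : ℕ} (hp : v (p : K) = 1)
    (hpP : p • P = 0) : σG P = P := by
  by_cases hP : P = 0
  · rw [hP, map_zero]
  have hX : v (M.X P) ≤ 1 := X_le_one_of_torsion hα hβ.le h2 hP hp hpP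
  apply Inert.eq_of_E1 hα hβ.le h2 hp hpP
  rcases hX.lt_or_eq with h | h
  · have hY : v (M.Y P) ≤ 1 := Y_le_one hα hβ.le hP hX
    apply E1_sub_of_congr hα h2 hP (hσ.ne_zero P hP) hX
    · rw [hσ.X_map P hP]
      exact hσ.v_sub _ hX
    · rw [hσ.Y_map P hP]
      exact hσ.v_sub _ hY
    · right
      have : 3 * M.X P ^ 2 + 2 * α * M.X P + β = β + M.X P * (3 * M.X P + 2 * α) := by ring
      rw [this, Valuation.map_add_eq_of_lt_left, hβ]
      rw [hβ, map_mul]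
      apply g_mul_lt_one_of_lt_of_le h
      apply v.map_add_le
      · rw [map_mul]
        refine mul_le_one' ?_ hX
        have : (3 : K) = 2 + 1 := by norm_num
        rw [this]
        exact v.map_add_le h2.le (by rw [map_one])
      · rw [map_mul, h2, one_mul]
        exact hα
  · exact hσ.E1_of_unit hα hβ.le h2 hD hP h

section mult

variable {T : G}

lemma Y_T (hT : T ≠ 0) (hXT : M.X T = 0) : M.Y T = 0 := by
  have := M.eqn T hT
  rw [hXT, zero_mul] at this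
  exact pow_eq_zero_iff two_ne_zero |>.mp this

lemma neg_T (hT : T ≠ 0) (hXT : M.X T = 0) : -T = T := by
  apply M.inj _ _ (neg_ne_zero.mpr hT) hT (M.X_neg T)
  rw [M.Y_neg, Y_T hT hXT, neg_zero]

lemma Inert.map_T (hσ : M.Inert v σK σG) (hT : T ≠ 0) (hXT : M.X T = 0) : σG T = T := by
  apply M.inj _ _ (hσ.ne_zero T hT) hT
  · rw [hσ.X_map T hT, hXT, map_zero]
  · rw [hσ.Y_map T hT, Y_T hT hXT, map_zero]

lemma X_mul_X_add_T (hT : T ≠ 0) (hXT : M.X T = 0) {Q : G} (hQ : Q ≠ 0) (hQT : Q ≠ T) :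
    Q + T ≠ 0 ∧ M.X Q * M.X (Q + T) = β := by
  have h0 : Q + T ≠ 0 := by
    intro h
    apply hQT
    rw [eq_neg_of_add_eq_zero_left h, neg_T hT hXT]
  refine ⟨h0, ?_⟩
  obtain ⟨l, m, -, L2, -, -, V2, -⟩ := M.line Q T (-(Q + T)) hQ hT (neg_ne_zero.mpr h0) (by abel)
  rw [hXT, Y_T hT hXT, mul_zero, zero_add] at L2
  rw [M.X_neg, hXT, ← L2] at V2
  linear_combination V2

lemma ne_T_of_odd_torsion (hT : T ≠ 0) (hXT : M.X T = 0) {p : ℕ} (hodd : Odd p) {Q : G}
    (hpQ : p • Q = 0) : Q ≠ T := by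
  rintro rfl
  obtain ⟨k, rfl⟩ := hodd
  have h2T : 2 • Q = 0 := by
    rw [two_nsmul]
    nth_rewrite 1 [← neg_T hT hXT]
    exact neg_add_cancel Q
  rw [add_nsmul, mul_comm, mul_smul, h2T, smul_zero, zero_add, one_nsmul] at hpQ
  exact hT hpQ

lemma mid_of_torsion (hα : v α ≤ 1) (hβ : v β ≤ 1) (h2 : v (2 : K) = 1) (hT : T ≠ 0)
    (hXT : M.X T = 0) {p : ℕ} (hodd : Odd p) (hp : v (p : K) = 1) {Q : G} (hQ : Q ≠ 0)
    (hpQ : p • Q = 0) : M.Mid v Q := by
  refine ⟨hQ, ?_, X_le_one_of_torsion hα hβ h2 hQ hp hpQ⟩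
  by_contra hc
  obtain ⟨h0, hm⟩ := X_mul_X_add_T hT hXT hQ (ne_T_of_odd_torsion hT hXT hodd hpQ)
  have h1 : 1 < v (M.X (Q + T)) := by
    have := congrArg v hm
    rw [map_mul, mul_comm] at this
    exact g_one_lt_of_mul_eq this (not_le.mp hc)
  apply h0
  apply eq_zero_of_E1_of_nsmul_eq_zero hα hβ (v_ne_zero_of_eq_one h2) (Or.inr h1) (n := p * 2)
  · rw [Nat.cast_mul, map_mul, hp, one_mul, Nat.cast_ofNat, h2]
  · have h2T : 2 • T = 0 := by
      rw [two_nsmul]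
      nth_rewrite 1 [← neg_T hT hXT]
      exact neg_add_cancel T
    rw [smul_add, mul_smul p 2 T, h2T, smul_zero, add_zero, mul_comm, mul_smul, hpQ, smul_zero]

lemma Inert.v_sub_lt (hσ : M.Inert v σK σG) {β₀ : K} (hβ₀ : β₀ ≠ 0) (hfix : σK β₀ = β₀) {x : K}
    {j : ℤ} (hx : v x = v β₀ ^ j) : v (σK x - x) < v x := by
  have hb : β₀ ^ j ≠ 0 := zpow_ne_zero j hβ₀
  have hw : v (x / β₀ ^ j) = 1 := by
    rw [map_div₀, map_zpow₀, hx]
    exact div_self (zpow_ne_zero j (v.ne_zero_iff.mpr hβ₀))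
  have h1 := hσ.v_sub _ hw.le
  have h3 : σK x - x = β₀ ^ j * (σK (x / β₀ ^ j) - x / β₀ ^ j) := by
    rw [map_div₀, map_zpow₀, hfix]
    field_simp
  rw [h3, map_mul, map_zpow₀, hx]
  have hpos : 0 < v β₀ ^ j := zero_lt_iff.mpr (zpow_ne_zero j (v.ne_zero_iff.mpr hβ₀))
  calc v β₀ ^ j * v (σK (x / β₀ ^ j) - x / β₀ ^ j) < v β₀ ^ j * 1 :=
        mul_lt_mul_of_pos_left h1 hpos
    _ = v β₀ ^ j := mul_one _

/-- **Multiplicative reduction with `p`-th power discriminant**: inertia acts trivially on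
`p`-torsion. -/
theorem Inert.fix_of_mult (hσ : M.Inert v σK σG) (h2 : v (2 : K) = 1) {a : K} (ha : a ^ 2 = α)
    (hα : v α = 1) (hβ1 : v β < 1) (hβ0 : β ≠ 0) (hT : T ≠ 0) (hXT : M.X T = 0) {p : ℕ}
    (hodd : Odd p) (hp : v (p : K) = 1) {β₀ : K} (hβ₀ : β = β₀ ^ p) (hfix : σK β₀ = β₀) {P : G}
    (hpP : p • P = 0) : σG P = P := by
  by_cases hP : P = 0
  · rw [hP, map_zero]
  have hp0 : p ≠ 0 := by
    rintro rfl
    simp at hodd
  have hb0 : β₀ ≠ 0 := by
    rintro rfl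
    exact hβ0 (by rw [hβ₀, zero_pow hp0])
  have hD : v (α ^ 2 - 4 * β) = 1 := by
    rw [Valuation.map_sub_eq_of_lt_left, map_pow, hα, one_pow]
    rw [map_pow, hα, one_pow, map_mul, v_four h2, one_mul]
    exact hβ1
  have hmid : ∀ n : ℕ, n • P = 0 ∨ M.Mid v (n • P) := by
    intro n
    by_cases h : n • P = 0
    · exact Or.inl h
    · refine Or.inr (mid_of_torsion hα.le hβ1.le h2 hT hXT hodd hp h ?_)
      rw [smul_comm, hpP, smul_zero]
  obtain ⟨j, hj⟩ := exists_zpow_of_torsion h2 ha hα hβ1 hβ0 hmid hP hp0 hβ₀ hpP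
  have hPm : M.Mid v P := mid_of_torsion hα.le hβ1.le h2 hT hXT hodd hp hP hpP
  apply Inert.eq_of_E1 hα.le hβ1.le h2 hp hpP
  rcases hPm.2.2.lt_or_eq with hX1 | hX1
  · rcases hPm.2.1.lt_or_eq with hXb | hXb
    · -- node region
      have hva := v_a_eq_one ha hα
      have hx0 : M.X P ≠ 0 := hPm.X_ne_zero hβ0
      have hρ : v (M.Y P / M.X P) = 1 := by
        rcases rho_sign ha hβ0 hP hX1 hXb with h | h
        · have : M.Y P / M.X P = a + (M.Y P / M.X P - a) := by ring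
          rw [this, Valuation.map_add_eq_of_lt_left, hva]
          rw [hva]; exact h
        · have : M.Y P / M.X P = -a + (M.Y P / M.X P + a) := by ring
          rw [this, Valuation.map_add_eq_of_lt_left, Valuation.map_neg, hva]
          rw [Valuation.map_neg, hva]; exact h
      have hYX : v (M.Y P) = v (M.X P) := by
        rw [map_div₀] at hρ
        exact (div_eq_one_iff_eq (v.ne_zero_iff.mpr hx0)).mp hρ
      apply E1_sub_of_rel hα.le h2 hP (hσ.ne_zero P hP) hX1.le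
      · rw [hσ.X_map P hP]
        exact hσ.v_sub_lt hb0 hfix hj
      · exact hYX
      · rw [hσ.Y_map P hP]
        exact hσ.v_sub_lt hb0 hfix (hYX.trans hj)
    · -- translate by `T`
      obtain ⟨h0, hm⟩ := X_mul_X_add_T hT hXT hP (ne_T_of_odd_torsion hT hXT hodd hpP)
      have h1 : v (M.X (P + T)) = 1 := by
        have := congrArg v hm
        rw [map_mul, ← hXb] at this
        exact mul_eq_left₀ (v.ne_zero_iff.mpr hβ0) |>.mp this
      have := hσ.E1_of_unit hα.le hβ1.le h2 hD h0 h1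
      rw [map_add, hσ.map_T hT hXT, add_sub_add_right_eq_sub] at this
      exact this
  · exact hσ.E1_of_unit hα.le hβ1.le h2 hD hP hX1

end mult

end Model

end Fermat.Agent.S05lib
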