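import Fermat.Agent.S05lib.Model

/-!
# The kernel of reduction has no torsion prime to the residue characteristic
-/

namespace Fermat.Agent.S05lib

section toolkit

variable {Γ₀ : Type*} [LinearOrderedCommGroupWithZero Γ₀]

lemma g_mul_lt_one_of_le_of_lt {a b : Γ₀} (ha : a ≤ 1) (hb : b < 1) : a * b < 1 :=
  lt_of_le_of_lt (mul_le_of_le_one_left' ha) hb

lemma g_mul_lt_one_of_lt_of_le {a b : Γ₀} (ha : a < 1) (hb : b ≤ 1) : a * b < 1 :=
  lt_of_le_of_lt (mul_le_of_le_one_right' hb) ha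

lemma g_one_lt_of_mul_sq_eq_one {a b : Γ₀} (h : a * b ^ 2 = 1) (hb : b < 1) : 1 < a := by
  by_contra hc
  have h1 : b ^ 2 < 1 := pow_lt_one₀ zero_le hb two_ne_zero
  have := g_mul_lt_one_of_le_of_lt (not_lt.mp hc) h1
  rw [h] at this
  exact lt_irrefl _ this

lemma g_lt_one_of_sq_lt_one {a : Γ₀} (h : a ^ 2 < 1) : a < 1 := by
  by_contra hc
  exact absurd (one_le_pow₀ (not_lt.mp hc) : 1 ≤ a ^ 2) (not_le.mpr h)

end toolkit

variable {G : Type*} [AddCommGroup G] {K : Type*} [Field K] {α β : K}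
  {Γ₀ : Type*} [LinearOrderedCommGroupWithZero Γ₀]

lemma v_two_le (v : Valuation K Γ₀) : v (2 : K) ≤ 1 := by
  rw [← one_add_one_eq_two]
  exact v.map_add_le (by simp) (by simp)

lemma v_ne_zero_of_eq_one {v : Valuation K Γ₀} {x : K} (h : v x = 1) : x ≠ 0 := by
  intro h0
  rw [h0, map_zero] at h
  exact zero_ne_one h

namespace Model

variable (M : Model G K α β) (v : Valuation K Γ₀)

/-- The local parameter at the origin. -/
noncomputable def z (P : G) : K := M.X P / M.Y P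

/-- The kernel of reduction. -/
def E1 (P : G) : Prop := P = 0 ∨ 1 < v (M.X P)

lemma z_neg (P : G) : M.z (-P) = -M.z P := by
  simp only [z, M.X_neg, M.Y_neg, div_neg]

lemma Y_zero (h2 : (2 : K) ≠ 0) : M.Y 0 = 0 := by
  have h := M.Y_neg 0
  rw [neg_zero] at h
  have : (2 : K) * M.Y 0 = 0 := by linear_combination h
  exact (mul_eq_zero.mp this).resolve_left h2

lemma z_zero (h2 : (2 : K) ≠ 0) : M.z 0 = 0 := by
  simp [z, M.Y_zero h2]

variable {M v}

lemma pole (hα : v α ≤ 1) (hβ : v β ≤ 1) {P : G} (hP : P ≠ 0) (hX : 1 < v (M.X P)) :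
    M.X P ≠ 0 ∧ M.Y P ≠ 0 ∧ M.z P ≠ 0 ∧ v (M.z P) < 1 ∧
      ∃ u, v u = 1 ∧ (M.X P)⁻¹ = M.z P ^ 2 * u := by
  have hx0 : M.X P ≠ 0 := by
    intro h
    rw [h, map_zero] at hX
    exact absurd hX (not_lt.mpr zero_le)
  have hw : v (M.X P)⁻¹ < 1 := by
    rw [map_inv₀]
    exact inv_lt_one_of_one_lt₀ hX
  set x := M.X P with hx
  set y := M.Y P with hy
  set w := x⁻¹ with hwdef
  have hu : v (1 + (α * w + β * w ^ 2)) = 1 := by
    apply Valuation.map_one_add_of_lt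
    apply v.map_add_lt
    · rw [map_mul]
      exact g_mul_lt_one_of_le_of_lt hα hw
    · rw [map_mul, map_pow]
      exact g_mul_lt_one_of_le_of_lt hβ (pow_lt_one₀ zero_le hw two_ne_zero)
  set u := 1 + (α * w + β * w ^ 2) with hudef
  have hu0 : u ≠ 0 := v_ne_zero_of_eq_one hu
  have hyy : y ^ 2 = x ^ 3 * u := by
    rw [hy, M.eqn P hP, hudef, hwdef, ← hx]
    field_simp
    ring
  have hy0 : y ≠ 0 := by
    intro h
    rw [h] at hyy
    have : x ^ 3 * u ≠ 0 := mul_ne_zero (pow_ne_zero 3 hx0) hu0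
    exact this (by rw [← hyy]; ring)
  have hz : M.z P = x / y := rfl
  have hzz : w = M.z P ^ 2 * u := by
    rw [hz, div_pow, hyy, hwdef]
    field_simp
  refine ⟨hx0, hy0, by rw [hz]; exact div_ne_zero hx0 hy0, ?_, u, hu, hzz⟩
  have h1 : v (M.z P) ^ 2 < 1 := by
    have := hw
    rw [hzz, map_mul, hu, mul_one, map_pow] at this
    exact this
  exact g_lt_one_of_sq_lt_one h1

/-- The key step: the kernel of reduction is closed under the group law and the parameter `z` is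
additive up to higher order terms. -/
lemma E1_step (hα : v α ≤ 1) (hβ : v β ≤ 1) {P₁ P₂ P₃ : G} (h1 : P₁ ≠ 0) (h2 : P₂ ≠ 0)
    (h3 : P₃ ≠ 0) (hs : P₁ + P₂ + P₃ = 0) (hx1 : 1 < v (M.X P₁)) (hx2 : 1 < v (M.X P₂)) :
    1 < v (M.X P₃) ∧ ∃ c, v c ≤ 1 ∧
      M.z P₁ + M.z P₂ + M.z P₃ = M.z P₁ * M.z P₂ * M.z P₃ * c := by
  obtain ⟨l, m, L1, L2, L3, V1, V2, V3⟩ := M.line P₁ P₂ P₃ h1 h2 h3 hs
  obtain ⟨hx10, hy10, hz10, hz1, u1, hu1, hw1⟩ := pole hα hβ h1 hx1
  obtain ⟨hx20, hy20, hz20, hz2, u2, hu2, hw2⟩ := pole hα hβ h2 hx2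
  have hz1d : M.z P₁ = M.X P₁ / M.Y P₁ := rfl
  have hz2d : M.z P₂ = M.X P₂ / M.Y P₂ := rfl
  have hz3d : M.z P₃ = M.X P₃ / M.Y P₃ := rfl
  set x1 := M.X P₁
  set x2 := M.X P₂
  set x3 := M.X P₃
  set y1 := M.Y P₁
  set y2 := M.Y P₂
  set y3 := M.Y P₃
  set z1 := M.z P₁
  set z2 := M.z P₂
  set z3 := M.z P₃
  -- the basic identity
  have star : x1 * x2 * (x1 * x2 - β) = -m * (y1 * x2 + y2 * x1) := by
    linear_combination (x1 * x2) * V2 - (x1 + x2) * V3 + m * x2 * L1 + m * x1 * L2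
  have e1 : (x1 * x2 - β) * (z1 * z2) = -m * (z1 + z2) := by
    rw [hz1d, hz2d]
    field_simp
    linear_combination star
  have hN : m * (z1 * z2 * (z1 + z2)) * (u1 * u2) = -(1 - β * (x1⁻¹ * x2⁻¹)) := by
    have : m * (z1 * z2 * (z1 + z2)) * (u1 * u2)
        = -((x1 * x2 - β) * ((z1 ^ 2 * u1) * (z2 ^ 2 * u2))) := by
      linear_combination (z1 * z2 * u1 * u2) * e1
    rw [this, ← hw1, ← hw2]
    field_simp
  have hw1' : v x1⁻¹ < 1 := by rw [map_inv₀]; exact inv_lt_one_of_one_lt₀ hx1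
  have hw2' : v x2⁻¹ < 1 := by rw [map_inv₀]; exact inv_lt_one_of_one_lt₀ hx2
  have hvN : v (m * (z1 * z2 * (z1 + z2))) = 1 := by
    have h := congrArg v hN
    rw [map_mul, map_mul v u1, hu1, hu2, mul_one, mul_one, Valuation.map_neg] at h
    rw [h]
    apply Valuation.map_one_sub_of_lt
    rw [map_mul, map_mul]
    exact g_mul_lt_one_of_le_of_lt hβ (g_mul_lt_one_of_lt_of_le hw1' hw2'.le)
  have hN0 : m * (z1 * z2 * (z1 + z2)) ≠ 0 := v_ne_zero_of_eq_one hvN
  have hm0 : m ≠ 0 := left_ne_zero_of_mul hN0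
  have hzs0 : z1 + z2 ≠ 0 := right_ne_zero_of_mul (right_ne_zero_of_mul hN0)
  have hzs : v (z1 + z2) < 1 := v.map_add_lt hz1 hz2
  -- closure
  have hx3 : x3 * (z1 + z2) ^ 2 = (m * (z1 * z2 * (z1 + z2))) ^ 2 * (u1 * u2) := by
    have hx3' : x3 = m ^ 2 * (x1⁻¹ * x2⁻¹) := by
      field_simp
      linear_combination V3
    rw [hx3', hw1, hw2]
    ring
  have hvx3 : 1 < v x3 := by
    have h := congrArg v hx3
    rw [map_mul, map_mul, map_pow, map_pow, hvN, map_mul, hu1, hu2] at h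
    simp only [one_pow, mul_one] at h
    exact g_one_lt_of_mul_sq_eq_one h hzs
  refine ⟨hvx3, ?_⟩
  obtain ⟨hx30, hy30, hz30, hz3, u3, hu3, hw3⟩ := pole hα hβ h3 hvx3
  have hx30' : x3 ≠ 0 := hx30
  have hy30' : y3 ≠ 0 := hy30
  -- the sum formula
  have S : x1 * y2 * y3 + x2 * y1 * y3 + x3 * y1 * y2 = m * (2 * l * β - α * m) := by
    rw [L1, L2, L3]
    linear_combination (m ^ 2) * V1 + (2 * l * m) * V2 + (3 * l ^ 2) * V3
  refine ⟨2 * β * (l / m) - α, ?_, ?_⟩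
  · have hlm : v (l / m) ≤ 1 := by
      have : l / m = z2 * (z1 + z2) / (m * (z1 * z2 * (z1 + z2))) - x1⁻¹ := by
        have hl : l = (y1 - m) / x1 := by
          field_simp
          linear_combination -L1
        have hy1 : y1 = x1 / z1 := by
          rw [hz1d]
          field_simp
        rw [hl, hy1]
        field_simp
      rw [this]
      apply v.map_sub_le
      · rw [map_div₀, hvN, div_one, map_mul]
        exact (g_mul_lt_one_of_lt_of_le hz2 hzs.le).le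
      · exact hw1'.le
    apply v.map_sub_le _ hα
    rw [map_mul, map_mul]
    exact mul_le_one' (mul_le_one' (v_two_le v) hβ) hlm
  · rw [hz1d, hz2d, hz3d]
    field_simp
    linear_combination (m) * S - (2 * l * β - α * m) * V3

/-- Multiples of a point in the kernel of reduction. -/
theorem E1_nsmul (hα : v α ≤ 1) (hβ : v β ≤ 1) (h2 : (2 : K) ≠ 0) {P : G} (hP : P ≠ 0)
    (hX : 1 < v (M.X P)) (n : ℕ) :
    M.E1 v (n • P) ∧ v (M.z (n • P) - n * M.z P) < v (M.z P) := by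
  obtain ⟨-, -, hz0, hz1, -⟩ := pole hα hβ hP hX
  have hzpos : 0 < v (M.z P) := zero_lt_iff.mpr ((v.ne_zero_iff).mpr hz0)
  induction n with
  | zero =>
    refine ⟨Or.inl (zero_smul _ _), ?_⟩
    simpa [M.z_zero h2] using hzpos
  | succ n ih =>
    obtain ⟨ihE, ihz⟩ := ih
    rw [succ_nsmul]
    set Q := n • P with hQdef
    by_cases hQ : Q = 0
    · rw [hQ, zero_add]
      refine ⟨Or.inr hX, ?_⟩
      rw [hQ, M.z_zero h2] at ihz
      have : M.z P - ((n + 1 : ℕ) : K) * M.z P = 0 - n * M.z P := by push_cast; ring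
      rw [this]
      exact ihz
    by_cases hR : Q + P = 0
    · rw [hR]
      refine ⟨Or.inl rfl, ?_⟩
      have hQP : Q = -P := eq_neg_of_add_eq_zero_left hR
      rw [hQP, M.z_neg] at ihz
      have : M.z 0 - ((n + 1 : ℕ) : K) * M.z P = -M.z P - n * M.z P := by
        rw [M.z_zero h2]; push_cast; ring
      rw [this]
      exact ihz
    have hXQ : 1 < v (M.X Q) := ihE.resolve_left hQ
    have hnR : -(Q + P) ≠ 0 := neg_ne_zero.mpr hR
    obtain ⟨hXR, c, hc, hsum⟩ := E1_step hα hβ hQ hP hnR (by abel) hXQ hX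
    rw [M.X_neg] at hXR
    rw [M.z_neg] at hsum
    refine ⟨Or.inr hXR, ?_⟩
    obtain ⟨-, -, -, hzQ, -⟩ := pole hα hβ hQ hXQ
    obtain ⟨-, -, -, hzR, -⟩ := pole hα hβ hR hXR
    have : M.z (Q + P) - ((n + 1 : ℕ) : K) * M.z P
        = (M.z Q - n * M.z P) + M.z P * (M.z Q * M.z (Q + P) * c) := by
      push_cast
      linear_combination -hsum
    rw [this]
    apply v.map_add_lt ihz
    rw [map_mul]
    have h1 : v (M.z Q * M.z (Q + P) * c) < 1 := by
      rw [map_mul, map_mul]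
      exact g_mul_lt_one_of_lt_of_le (g_mul_lt_one_of_lt_of_le hzQ hzR.le) hc
    calc v (M.z P) * v (M.z Q * M.z (Q + P) * c) < v (M.z P) * 1 :=
          mul_lt_mul_of_pos_left h1 hzpos
      _ = v (M.z P) := mul_one _

/-- **The kernel of reduction has no torsion of order prime to the residue characteristic.** -/
theorem eq_zero_of_E1_of_nsmul_eq_zero (hα : v α ≤ 1) (hβ : v β ≤ 1) (h2 : (2 : K) ≠ 0) {P : G}
    (hE : M.E1 v P) {n : ℕ} (hn : v (n : K) = 1) (hnP : n • P = 0) : P = 0 := by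
  by_contra hP
  have hX : 1 < v (M.X P) := hE.resolve_left hP
  obtain ⟨-, h⟩ := E1_nsmul hα hβ h2 hP hX n
  rw [hnP, M.z_zero h2, zero_sub, Valuation.map_neg, map_mul, hn, one_mul] at h
  exact lt_irrefl _ h

end Model

end Fermat.Agent.S05lib
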