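import Mathlib

/-!
# Abstract chord-tangent model of `Y² = X (X² + α X + β)`

`Model G K α β` packages coordinate functions on an abelian group `G` (the group of points of an
elliptic curve with a rational 2-torsion point moved to `(0,0)`) together with the only facts about
the group law that the valuation-theoretic analysis needs.
-/

namespace Fermat.Agent.S05lib

/-- Coordinate functions `X Y : G → K` on an abelian group satisfying the chord-tangent relations of
the curve `Y² = X (X² + α X + β)`.  The values at `0` are junk. -/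
structure Model (G : Type*) [AddCommGroup G] (K : Type*) [Field K] (α β : K) where
  X : G → K
  Y : G → K
  eqn : ∀ P, P ≠ 0 → Y P ^ 2 = X P * (X P ^ 2 + α * X P + β)
  X_neg : ∀ P, X (-P) = X P
  Y_neg : ∀ P, Y (-P) = -Y P
  inj : ∀ P Q, P ≠ 0 → Q ≠ 0 → X P = X Q → Y P = Y Q → P = Q
  line : ∀ P₁ P₂ P₃, P₁ ≠ 0 → P₂ ≠ 0 → P₃ ≠ 0 → P₁ + P₂ + P₃ = 0 →
    ∃ l m : K, Y P₁ = l * X P₁ + m ∧ Y P₂ = l * X P₂ + m ∧ Y P₃ = l * X P₃ + m ∧
      X P₁ + X P₂ + X P₃ = l ^ 2 - α ∧
      X P₁ * X P₂ + X P₁ * X P₃ + X P₂ * X P₃ = β - 2 * l * m ∧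
      X P₁ * X P₂ * X P₃ = m ^ 2

end Fermat.Agent.S05lib
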